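import Mathlib
import Fermat.Agent.LT.H556.A0

/-!
# Row LT, tower T3 (architect helper14): adelic POISSON summation + EISENSTEIN-KILLING (EK)

OFF-MAIN.  Definitions, frozen Props, PROVED top.  No `sorry`, no opaque constant, nothing assumed.

Tower T3 of board v2 was "Eisenstein series, `M(s)`, spectral decomposition, Tate's thesis".
Following the memo of helper261 (`origin/helper261@a08a0013d coord/LT-A3-EK-helper261.md`,
Lindenstrauss--Venkatesh, GAFA 17 (2007) §§3--4) the Eisenstein part is REPLACED by a condition on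
the test function, `IsEK`, under which `R(f)` maps every automorphic function to a cuspidal one.
No Eisenstein series, no intertwining operator, no Hecke `L`-function is used by the towers above.

## What T3 delivers (`T3Out K`)

* `GoodCharExistsC K`, `PoissonNDC K` -- there is a continuous additive character of `𝔸_K`,
  trivial on `K`, NON-DEGENERATE, with local conductor `𝒪_v` at almost all `v`; Poisson summation
  in the form of Tate's thesis, Thm 4.2.1, for EVERY non-degenerate character trivial on `K` and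
  the Haar measure of covolume one.  (Consumers: A2 = theta kernel over `E'`; T4/T5 step
  "Poisson over `N(K)`".)  The stronger forms `NonDegC`, `PoissonC`, `CondC` (for every
  non-trivial character trivial on `K`; they need strong approximation) are OPTIONAL:
  `T3OutStrong`.
* `EKCuspC K` -- if `f` is EK then `R(f)ψ` is cuspidal (sense of `A0.IsCuspidalFn`) for every
  bounded continuous `ψ` on `GL₂(K) \ GL₂(𝔸_K)`.
* `EKIdealC K`, `EKStarC K` -- EK functions form a two-sided ideal of `C_c(GL₂(𝔸_K))` stable under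
  `f ↦ f^*`.
* `EKExistC K` -- (K totally complex) for a level `𝔫`, a place `v₀ ∤ 𝔫` and a generator
  `α ≡ 1 mod 𝔫` of `𝔭_{v₀}^n` there is an EK function, supported at `{v₀} ∪ S_∞`, bi-invariant
  under `U(𝔫) K_∞`, which acts on every function that is spherical of parameter `0` at infinity
  and Hecke-eigen at `v₀` with Satake parameters `z₁, z₂` by a scalar `c(a,b)`, non-zero as soon as
  `z₁ⁿ ≠ 1 ≠ z₂ⁿ`.

## Conventions

`Adl K`, `G K`, `finComp`, `infComp`, `InLevelGroup`, `IsArchCompact`, `IsArchPosScalar`,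
`MeanValueComplex`, `MeanValueReal`, `IsHeckeEigenAt`, `IsCuspidalFn` are those of
`LT/H556/A0.lean` (helper556@0fa0be5a0, byte-identical copy).  All σ-algebras are Borel.
Measures are quantified universally (every Haar measure); no normalisation is chosen.
-/

set_option autoImplicit false

open IsDedekindDomain NumberField MeasureTheory
open Fermat.Agent.LT.H556.A0

noncomputable section

namespace Fermat.Agent.LT.T3

variable (K : Type) [Field K] [NumberField K]

/-! ## Part A.  Additive characters and Poisson summation (Tate's thesis §§2.2, 4.1, 4.2) -/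

/-- The diagonal embedding `K → 𝔸_K`. -/
abbrev emb : K →+* Adl K := algebraMap K (Adl K)

/-- A *standard character*: a continuous additive character of `𝔸_K`, trivial on `K`, not
identically `1`. -/
structure IsStdChar (ψ : AddChar (Adl K) Circle) : Prop where
  cont : Continuous ψ
  triv : ∀ ξ : K, ψ (emb K ξ) = 1
  nontriv : ∃ x : Adl K, ψ x ≠ 1

/-- The Haar measure `μ` of `𝔸_K` gives `𝔸_K / K` the volume `1`. -/
def IsCovolOne {m : MeasurableSpace (Adl K)} (μ : Measure (Adl K)) : Prop :=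
  ∃ D : Set (Adl K),
    IsAddFundamentalDomain ((algebraMap K (Adl K)).toAddMonoidHom.range) D μ ∧ μ D = 1

/-- The Fourier transform of `φ` with respect to `ψ` and `μ`:
`φ̂(y) = ∫ φ(x) ψ(xy) dμ(x)`. -/
def fourierAd {m : MeasurableSpace (Adl K)} (ψ : AddChar (Adl K) Circle) (μ : Measure (Adl K))
    (φ : Adl K → ℂ) (y : Adl K) : ℂ :=
  ∫ x, φ x * ((ψ (x * y) : Circle) : ℂ) ∂μ

/-- Normal convergence of `∑_{ξ ∈ K} φ(x + ξ)` on compact sets. -/
def IsNormallySummable (φ : Adl K → ℂ) : Prop :=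
  ∀ C : Set (Adl K), IsCompact C →
    ∃ b : K → ℝ, Summable b ∧ ∀ (ξ : K) (x : Adl K), x ∈ C → ‖φ (x + emb K ξ)‖ ≤ b ξ

/-- **T3.01', weak form** (Tate §4.1).  A standard character exists. -/
def StdCharExistsC : Prop :=
  ∃ ψ : AddChar (Adl K) Circle, IsStdChar K ψ

/-- `ψ` is non-degenerate: `ψ(x 𝔸_K) = 1` only for `x = 0` (equivalently: `ψ` is non-trivial on
every local component `K_v`). -/
def IsNonDeg (ψ : AddChar (Adl K) Circle) : Prop :=
  ∀ x : Adl K, (∀ y : Adl K, ψ (x * y) = 1) → x = 0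

/-- **T3.02, OPTIONAL** (strong approximation, Cassels--Fröhlich II §15: `K + K_v` is dense in
`𝔸_K` for every place `v`).  Every standard character is non-degenerate. -/
def NonDegC : Prop :=
  ∀ ψ : AddChar (Adl K) Circle, IsStdChar K ψ → IsNonDeg K ψ

/-- **T3.03', OPTIONAL** (Tate Thm 4.1.4, every standard character).  `K^⊥ = K`. -/
def PerpC : Prop :=
  ∀ ψ : AddChar (Adl K) Circle, IsStdChar K ψ →
    ∀ x : Adl K, (∀ ξ : K, ψ (x * emb K ξ) = 1) → ∃ ξ₀ : K, x = emb K ξ₀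

/-- **T3.03** (Tate Thm 4.1.4 for a non-degenerate character; abstract annihilator lemma: tube
lemma + "a finite vector space over an infinite field is zero").  `K^⊥ = K`. -/
def PerpNDC : Prop :=
  ∀ ψ : AddChar (Adl K) Circle, IsStdChar K ψ → IsNonDeg K ψ →
    ∀ x : Adl K, (∀ ξ : K, ψ (x * emb K ξ) = 1) → ∃ ξ₀ : K, x = emb K ξ₀

/-- **T3.04', OPTIONAL** (completeness of the characters `x ↦ ψ(xη)`, `η ∈ K`, on the compact
group `𝔸_K / K`; Stone--Weierstrass + `PerpC`).  A continuous `K`-periodic function all of whose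
Fourier coefficients vanish is zero. -/
def CompleteC : Prop :=
  letI : MeasurableSpace (Adl K) := borel (Adl K)
  ∀ ψ : AddChar (Adl K) Circle, IsStdChar K ψ →
  ∀ μ : Measure (Adl K), μ.IsAddHaarMeasure →
  ∀ D : Set (Adl K), IsAddFundamentalDomain ((algebraMap K (Adl K)).toAddMonoidHom.range) D μ →
  ∀ F : Adl K → ℂ, Continuous F → (∀ (ξ : K) (x : Adl K), F (x + emb K ξ) = F x) →
    (∀ η : K, ∫ x in D, F x * ((ψ (x * emb K η) : Circle) : ℂ) ∂μ = 0) →
    ∀ x : Adl K, F x = 0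

/-- **T3.04** for a non-degenerate character. -/
def CompleteNDC : Prop :=
  letI : MeasurableSpace (Adl K) := borel (Adl K)
  ∀ ψ : AddChar (Adl K) Circle, IsStdChar K ψ → IsNonDeg K ψ →
  ∀ μ : Measure (Adl K), μ.IsAddHaarMeasure →
  ∀ D : Set (Adl K), IsAddFundamentalDomain ((algebraMap K (Adl K)).toAddMonoidHom.range) D μ →
  ∀ F : Adl K → ℂ, Continuous F → (∀ (ξ : K) (x : Adl K), F (x + emb K ξ) = F x) →
    (∀ η : K, ∫ x in D, F x * ((ψ (x * emb K η) : Circle) : ℂ) ∂μ = 0) →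
    ∀ x : Adl K, F x = 0

/-- **T3.05** (unfolding).  The Fourier coefficients of the periodisation of `φ` are the values
of the Fourier transform of `φ` on `K`. -/
def UnfoldC : Prop :=
  letI : MeasurableSpace (Adl K) := borel (Adl K)
  ∀ ψ : AddChar (Adl K) Circle, IsStdChar K ψ →
  ∀ μ : Measure (Adl K), μ.IsAddHaarMeasure →
  ∀ D : Set (Adl K), IsAddFundamentalDomain ((algebraMap K (Adl K)).toAddMonoidHom.range) D μ →
  ∀ φ : Adl K → ℂ, Continuous φ → Integrable φ μ → IsNormallySummable K φ →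
    ∀ η : K, ∫ x in D, (∑' ξ : K, φ (x + emb K ξ)) * ((ψ (x * emb K η) : Circle) : ℂ) ∂μ
      = fourierAd K ψ μ φ (emb K η)

/-- **T3.06 = POISSON** (Tate Thm 4.2.1; Lemma 4.2.4; tower Prop).  For every NON-DEGENERATE
standard character `ψ`, the Haar measure `μ` of covolume one and every continuous integrable `φ`
such that `∑_ξ φ(x + ξ)` converges normally on compact sets and `∑_ξ |φ̂(ξ)| < ∞`:
`∑_{ξ ∈ K} φ(ξ) = ∑_{ξ ∈ K} φ̂(ξ)`. -/
def PoissonNDC : Prop :=
  letI : MeasurableSpace (Adl K) := borel (Adl K)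
  ∀ ψ : AddChar (Adl K) Circle, IsStdChar K ψ → IsNonDeg K ψ →
  ∀ μ : Measure (Adl K), μ.IsAddHaarMeasure → IsCovolOne K μ →
  ∀ φ : Adl K → ℂ, Continuous φ → Integrable φ μ → IsNormallySummable K φ →
    Summable (fun ξ : K => ‖fourierAd K ψ μ φ (emb K ξ)‖) →
    ∑' ξ : K, φ (emb K ξ) = ∑' ξ : K, fourierAd K ψ μ φ (emb K ξ)

/-- **T3.06', OPTIONAL** (Tate Thm 4.2.1; Lemma 4.2.4).  For every standard character `ψ`, the
Haar measure `μ` of covolume one and every continuous integrable `φ` such that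
`∑_ξ φ(x + ξ)` converges normally on compact sets and `∑_ξ |φ̂(ξ)| < ∞`:
`∑_{ξ ∈ K} φ(ξ) = ∑_{ξ ∈ K} φ̂(ξ)`. -/
def PoissonC : Prop :=
  letI : MeasurableSpace (Adl K) := borel (Adl K)
  ∀ ψ : AddChar (Adl K) Circle, IsStdChar K ψ →
  ∀ μ : Measure (Adl K), μ.IsAddHaarMeasure → IsCovolOne K μ →
  ∀ φ : Adl K → ℂ, Continuous φ → Integrable φ μ → IsNormallySummable K φ →
    Summable (fun ξ : K => ‖fourierAd K ψ μ φ (emb K ξ)‖) →
    ∑' ξ : K, φ (emb K ξ) = ∑' ξ : K, fourierAd K ψ μ φ (emb K ξ)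

/-- The adele `x` is supported at the finite place `v`. -/
def IsLocAdeleAt (v : HeightOneSpectrum (𝓞 K)) (x : Adl K) : Prop :=
  x.1 = 0 ∧ ∀ v' : HeightOneSpectrum (𝓞 K), v' ≠ v → x.2 v' = 0

/-- For almost all finite places `v` the local component of `ψ` has conductor `𝒪_v`: it is
trivial on `𝒪_v` and non-trivial on `ϖ_v⁻¹ 𝒪_v`. -/
def IsUnramAE (ψ : AddChar (Adl K) Circle) : Prop :=
  ∃ S : Finset (HeightOneSpectrum (𝓞 K)), ∀ v : HeightOneSpectrum (𝓞 K), v ∉ S →
    (∀ x : Adl K, IsLocAdeleAt K v x → x.2 v ∈ v.adicCompletionIntegers K → ψ x = 1) ∧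
    ∃ x : Adl K, IsLocAdeleAt K v x ∧ Valued.v (x.2 v) = WithZero.exp (1 : ℤ) ∧ ψ x ≠ 1

/-- **T3.01** (Tate §4.1; tower Prop).  There is a standard character which is non-degenerate
and has conductor `𝒪_v` at almost all `v`.  Construction: `𝔸_f = K + ∏ 𝒪_v`,
`ψ_f(ξ + u) = e(Tr_{K/ℚ} ξ)`, `ψ_∞(x) = e(-∑_w Tr_{K_w/ℝ} x_w)`. -/
def GoodCharExistsC : Prop :=
  ∃ ψ : AddChar (Adl K) Circle, IsStdChar K ψ ∧ IsNonDeg K ψ ∧ IsUnramAE K ψ

/-- **T3.07, OPTIONAL** (Tate §4.1, Lemma 4.1.2 ff.).  Every standard character has conductor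
`𝒪_v` at almost all `v`. -/
def CondC : Prop :=
  ∀ ψ : AddChar (Adl K) Circle, IsStdChar K ψ → IsUnramAE K ψ

/-! ## Part B.  Eisenstein-killing test functions -/

/-- The upper unipotent element `n(x) = [[1, x], [0, 1]]` of `GL₂(𝔸_K)`. -/
def unip (x : Adl K) : G K :=
  ⟨!![1, x; 0, 1], !![1, -x; 0, 1],
    by ext i j; fin_cases i <;> fin_cases j <;> simp [Matrix.mul_apply, Fin.sum_univ_two],
    by ext i j; fin_cases i <;> fin_cases j <;> simp [Matrix.mul_apply, Fin.sum_univ_two]⟩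

/-- The rational torus element `diag(α, 1)`, `α ∈ Kˣ`, diagonally embedded in `GL₂(𝔸_K)`. -/
def torK (α : Kˣ) : G K :=
  ⟨!![emb K (α : K), 0; 0, 1], !![emb K ((α⁻¹ : Kˣ) : K), 0; 0, 1],
    by
      ext i j; fin_cases i <;> fin_cases j <;>
        simp [Matrix.mul_apply, Fin.sum_univ_two, ← map_mul],
    by
      ext i j; fin_cases i <;> fin_cases j <;>
        simp [Matrix.mul_apply, Fin.sum_univ_two, ← map_mul]⟩

/-- Right convolution: `(R(f)Ψ)(g) = ∫ Ψ(gh) f(h) dμ(h)`. -/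
def Rop {m : MeasurableSpace (G K)} (μ : Measure (G K)) (f Ψ : G K → ℂ) (g : G K) : ℂ :=
  ∫ h, Ψ (g * h) * f h ∂μ

/-- Convolution on `GL₂(𝔸_K)`: `(f₁ ⋆ f₂)(h) = ∫ f₁(y) f₂(y⁻¹h) dμ(y)`; then
`R(f₁ ⋆ f₂) = R(f₁) R(f₂)`. -/
def convG {m : MeasurableSpace (G K)} (μ : Measure (G K)) (f₁ f₂ : G K → ℂ) (h : G K) : ℂ :=
  ∫ y, f₁ y * f₂ (y⁻¹ * h) ∂μ

/-- The adjoint test function `f^*(h) = conj f(h⁻¹)`. -/
def starG (f : G K → ℂ) (h : G K) : ℂ := (starRingEnd ℂ) (f h⁻¹)

/-- THE EK CONDITION (global form of helper261's FACT 1).  `f` is *Eisenstein-killing with respect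
to `α ∈ Kˣ`* if for all `g, g'`
`∑_{j ∈ ℤ} ∫_{𝔸_K} f(g⁻¹ n(x) γ₀ʲ g') dx = 0`, `γ₀ = diag(α, 1)`
(for `f` of compact support and `α` not a root of unity the sum is finite). -/
def IsEK {m : MeasurableSpace (Adl K)} (ν : Measure (Adl K)) (f : G K → ℂ) (α : Kˣ) : Prop :=
  ∀ g g' : G K, HasSum (fun j : ℤ => ∫ x, f (g⁻¹ * unip K x * torK K α ^ j * g') ∂ν) 0

/-- **T3.11 = FACT 1** (Lindenstrauss--Venkatesh §3; memo helper261 §1; needs from T1 the Iwasawa
integration formula `dg = δ(a)⁻¹ dn da dk` on `GL₂(𝔸_K)` and the product formula).  If `f` is EK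
with respect to `α`, then `R(f)` kills every continuous function which is left invariant under
`N(𝔸_K)` and under `diag(α, 1)`. -/
def EKKillC : Prop :=
  letI : MeasurableSpace (Adl K) := borel (Adl K)
  letI : MeasurableSpace (G K) := borel (G K)
  ∀ μ : Measure (G K), μ.IsHaarMeasure → ∀ ν : Measure (Adl K), ν.IsAddHaarMeasure →
  ∀ (α : Kˣ) (f : G K → ℂ), Continuous f → HasCompactSupport f → IsEK K ν f α →
  ∀ Ψ : G K → ℂ, Continuous Ψ → (∀ (x : Adl K) (g : G K), Ψ (unip K x * g) = Ψ g) →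
    (∀ g : G K, Ψ (torK K α * g) = Ψ g) →
    ∀ g : G K, Rop K μ f Ψ g = 0

/-- `ψ` is a bounded continuous function on `GL₂(K) \ GL₂(𝔸_K)`. -/
structure IsAutFn (ψ : G K → ℂ) : Prop where
  cont : Continuous ψ
  bdd : ∃ C : ℝ, ∀ g : G K, ‖ψ g‖ ≤ C
  left_inv : ∀ (γ : GL (Fin 2) K) (g : G K),
    ψ (Matrix.GeneralLinearGroup.map (algebraMap K (Adl K)) γ * g) = ψ g

/-- **T3.12** (constant term; Fubini + product formula).  For `ψ` automorphic and `f` a test
function, the constant term of `R(f)ψ` over any fundamental domain `D` of `K` in `𝔸_K` is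
`R(f)Ψ` for a continuous function `Ψ` (the constant term of `ψ`) which is left invariant under
`N(𝔸_K)` and under the rational torus elements `diag(α, 1)`. -/
def ConstTermC : Prop :=
  letI : MeasurableSpace (Adl K) := borel (Adl K)
  letI : MeasurableSpace (G K) := borel (G K)
  ∀ μ : Measure (G K), μ.IsHaarMeasure →
  ∀ f : G K → ℂ, Continuous f → HasCompactSupport f →
  ∀ ψ : G K → ℂ, IsAutFn K ψ →
  ∀ μ' : Measure (Adl K), μ'.IsAddHaarMeasure →
  ∀ D : Set (Adl K), IsAddFundamentalDomain ((algebraMap K (Adl K)).toAddMonoidHom.range) D μ' →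
    ∃ Ψ : G K → ℂ, Continuous Ψ ∧ (∀ (x : Adl K) (g : G K), Ψ (unip K x * g) = Ψ g) ∧
      (∀ (α : Kˣ) (g : G K), Ψ (torK K α * g) = Ψ g) ∧
      ∀ g : G K, ∫ x in D, Rop K μ f ψ (unip K x * g) ∂μ' = Rop K μ f Ψ g

/-- **T3.13 = COROLLARY 1** (tower Prop).  If `f` is EK, then `R(f)ψ` is cuspidal for every
bounded continuous automorphic `ψ`. -/
def EKCuspC : Prop :=
  letI : MeasurableSpace (Adl K) := borel (Adl K)
  letI : MeasurableSpace (G K) := borel (G K)
  ∀ μ : Measure (G K), μ.IsHaarMeasure → ∀ ν : Measure (Adl K), ν.IsAddHaarMeasure →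
  ∀ (α : Kˣ) (f : G K → ℂ), Continuous f → HasCompactSupport f → IsEK K ν f α →
  ∀ ψ : G K → ℂ, IsAutFn K ψ → IsCuspidalFn (Rop K μ f ψ)

/-- **T3.14** (two-sided ideal; Fubini).  `f` EK, `f₁` any test function: `f ⋆ f₁` and `f₁ ⋆ f`
are EK. -/
def EKIdealC : Prop :=
  letI : MeasurableSpace (Adl K) := borel (Adl K)
  letI : MeasurableSpace (G K) := borel (G K)
  ∀ μ : Measure (G K), μ.IsHaarMeasure → ∀ ν : Measure (Adl K), ν.IsAddHaarMeasure →
  ∀ (α : Kˣ) (f : G K → ℂ), Continuous f → HasCompactSupport f → IsEK K ν f α →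
  ∀ f₁ : G K → ℂ, Continuous f₁ → HasCompactSupport f₁ →
    IsEK K ν (convG K μ f f₁) α ∧ IsEK K ν (convG K μ f₁ f) α

/-- **T3.15** (adjoint; product formula).  `f` EK with respect to `α` implies `f^*` EK with
respect to `α`. -/
def EKStarC : Prop :=
  letI : MeasurableSpace (Adl K) := borel (Adl K)
  ∀ ν : Measure (Adl K), ν.IsAddHaarMeasure →
  ∀ (α : Kˣ) (f : G K → ℂ), Continuous f → HasCompactSupport f → IsEK K ν f α →
    IsEK K ν (starG K f) α

/-- `φ` is right invariant under `U(𝔫)`, under the positive scalars and the maximal connected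
compact subgroups at infinity, and spherical of parameter `0` at every infinite place
(the local conditions of `A0.IsSph0CuspFormFor`, without automorphy). -/
structure IsSph0Level (𝔫 : Ideal (𝓞 K)) (φ : G K → ℂ) : Prop where
  cont : Continuous φ
  level_inv : ∀ u : G K, InLevelGroup 𝔫 u → ∀ g : G K, φ (g * u) = φ g
  arch_scalar : ∀ (w : InfinitePlace K) (z : G K), IsArchPosScalar w z →
    ∀ g : G K, φ (g * z) = φ g
  arch_compact : ∀ (w : InfinitePlace K) (k : G K), IsArchCompact w k →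
    ∀ g : G K, φ (g * k) = φ g
  mean_complex : ∀ w : InfinitePlace K, w.IsComplex → MeanValueComplex φ w
  mean_real : ∀ w : InfinitePlace K, w.IsReal → MeanValueReal φ w

/-- `f` is bi-invariant under `U(𝔫)` and under the maximal compact subgroups at infinity. -/
def IsBiInv (𝔫 : Ideal (𝓞 K)) (f : G K → ℂ) : Prop :=
  (∀ u : G K, InLevelGroup 𝔫 u → ∀ h : G K, f (u * h) = f h ∧ f (h * u) = f h) ∧
    ∀ (w : InfinitePlace K) (k : G K), IsArchCompact w k →
      ∀ h : G K, f (k * h) = f h ∧ f (h * k) = f h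

/-- `f` is supported at `{v₀} ∪ S_∞`: on the support of `f` the component at every finite
`v ≠ v₀` lies in `U(𝔫)_v`. -/
def IsSuppAt (𝔫 : Ideal (𝓞 K)) (v₀ : HeightOneSpectrum (𝓞 K)) (f : G K → ℂ) : Prop :=
  ∀ h : G K, f h ≠ 0 → ∀ v : HeightOneSpectrum (𝓞 K), v ≠ v₀ → ∀ i j : Fin 2,
    (finComp v h - 1) i j ∈ idealClosure 𝔫 v ∧ (finComp v h⁻¹ - 1) i j ∈ idealClosure 𝔫 v

/-- **T3.18 = FACT 2, existence** (memo helper261 §§1--2; Satake isomorphism at `v₀`, Abel
transform on `ℍ³` at the complex places).  `K` totally complex, `𝔫 ≠ 0`, `v₀ ∤ 𝔫`,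
`(α) = 𝔭_{v₀}ⁿ`, `n ≥ 1`, `α ≡ 1 mod 𝔫`.  There is an EK function `f` with respect to `α`,
bi-invariant under `U(𝔫) K_∞`, supported at `{v₀} ∪ S_∞`, and a function `c` of the Hecke
eigenvalues at `v₀` such that `R(f)φ = c(a,b) φ` for every `φ` spherical of parameter `0` of level
`𝔫` which is Hecke-eigen at `v₀` with eigenvalues `(a,b)`; and `c(a,b) ≠ 0` whenever the Satake
parameters `z₁, z₂` (`z₁ + z₂ = a`, `z₁ z₂ = b`) satisfy `z₁ⁿ ≠ 1`, `z₂ⁿ ≠ 1`. -/
def EKExistC : Prop :=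
  letI : MeasurableSpace (Adl K) := borel (Adl K)
  letI : MeasurableSpace (G K) := borel (G K)
  (∀ w : InfinitePlace K, w.IsComplex) →
  ∀ μ : Measure (G K), μ.IsHaarMeasure → ∀ ν : Measure (Adl K), ν.IsAddHaarMeasure →
  ∀ 𝔫 : Ideal (𝓞 K), 𝔫 ≠ ⊥ → ∀ v₀ : HeightOneSpectrum (𝓞 K), ¬ v₀.asIdeal ∣ 𝔫 →
  ∀ (a₀ : 𝓞 K) (n : ℕ), 0 < n → Ideal.span {a₀} = v₀.asIdeal ^ n → a₀ - 1 ∈ 𝔫 →
  ∀ α : Kˣ, (α : K) = algebraMap (𝓞 K) K a₀ →
    ∃ f : G K → ℂ, Continuous f ∧ HasCompactSupport f ∧ IsEK K ν f α ∧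
      IsBiInv K 𝔫 f ∧ IsSuppAt K 𝔫 v₀ f ∧
      ∃ c : ℂ → ℂ → ℂ,
        (∀ a b z₁ z₂ : ℂ, z₁ + z₂ = a → z₁ * z₂ = b → z₁ ^ n ≠ 1 → z₂ ^ n ≠ 1 → c a b ≠ 0) ∧
        ∀ φ : G K → ℂ, IsSph0Level K 𝔫 φ → ∀ a b : ℂ, IsHeckeEigenAt φ v₀ a b →
          ∀ g : G K, Rop K μ f φ g = c a b * φ g

/-! ## Part C.  What T3 takes from T1 (hypotheses of the leaves)

The first four Props are `T1.LocCompC`, `T1.AdeleLatticeC`, `T1.AddFundDomC`, `T1.DiscreteC` of
`LT/T1/Spec.lean` (helper54), unfolded; the last two are the measure forms of the product formula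
and of the Iwasawa decomposition (ingredients of T1.06 and T1.17). -/

/-- IN = `T1.LocCompC`. -/
def InLocCompC : Prop :=
  (LocallyCompactSpace (Adl K) ∧ T2Space (Adl K) ∧ SecondCountableTopology (Adl K)) ∧
    LocallyCompactSpace (G K) ∧ T2Space (G K) ∧ SecondCountableTopology (G K)

/-- IN = `T1.AdeleLatticeC`: `K` is discrete, closed and cocompact in `𝔸_K`. -/
def InLatticeC : Prop :=
  DiscreteTopology ((algebraMap K (Adl K)).toAddMonoidHom.range) ∧
    IsClosed (((algebraMap K (Adl K)).toAddMonoidHom.range : AddSubgroup (Adl K)) :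
      Set (Adl K)) ∧
    ∃ C : Set (Adl K), IsCompact C ∧ ∀ x : Adl K, ∃ ξ : K, x - algebraMap K (Adl K) ξ ∈ C

/-- IN = `T1.AddFundDomC`: Borel fundamental domain of `K` in `𝔸_K`, relatively compact, of
finite positive measure. -/
def InFundDomC : Prop :=
  letI : MeasurableSpace (Adl K) := borel (Adl K)
  ∀ μ : Measure (Adl K), μ.IsAddHaarMeasure →
    ∃ D : Set (Adl K), MeasurableSet D ∧
      IsAddFundamentalDomain ((algebraMap K (Adl K)).toAddMonoidHom.range) D μ ∧
      IsCompact (closure D) ∧ 0 < μ D ∧ μ D < ⊤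

/-- IN = `T1.DiscreteC`: `GL₂(K)` is discrete and closed in `GL₂(𝔸_K)`. -/
def InDiscreteC : Prop :=
  DiscreteTopology ((Matrix.GeneralLinearGroup.map (n := Fin 2) (algebraMap K (Adl K))).range) ∧
    IsClosed (((Matrix.GeneralLinearGroup.map (n := Fin 2) (algebraMap K (Adl K))).range :
      Subgroup (G K)) : Set (G K))

/-- IN (product formula, measure form; Weil BNT IV §4 Thm 5).  Multiplication by `α ∈ Kˣ`
preserves every Haar measure of `𝔸_K`. -/
def HaarScaleC : Prop :=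
  letI : MeasurableSpace (Adl K) := borel (Adl K)
  ∀ ν : Measure (Adl K), ν.IsAddHaarMeasure → ∀ α : Kˣ,
    Measure.map (fun x : Adl K => emb K (α : K) * x) ν = ν

/-- IN (Iwasawa decomposition, measure form `dg = δ(a)⁻¹ dn da dk`; Godement, Sém. Bourbaki 257
§10; Gelbart (3.10)).  For Haar measures `μ` of `GL₂(𝔸_K)` and `ν` of `𝔸_K` there is a measure
`ρ` on `GL₂(𝔸_K)` (the image of `δ(a)⁻¹ da dk` under `(a,k) ↦ ak`, `a` diagonal, `k ∈ K⁰`), finite
on compact sets, invariant under left multiplication by the rational torus elements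
`diag(α, 1)` (because `δ(diag(α,1)) = ‖α‖_𝔸 = 1`), with
`∫ F dμ = ∫ (∫ F(n(x) y) dν(x)) dρ(y)` for every continuous `F` of compact support, the inner
integral being of compact support on the support of `ρ`. -/
def IwasawaIntC : Prop :=
  letI : MeasurableSpace (Adl K) := borel (Adl K)
  letI : MeasurableSpace (G K) := borel (G K)
  ∀ μ : Measure (G K), μ.IsHaarMeasure → ∀ ν : Measure (Adl K), ν.IsAddHaarMeasure →
    ∃ ρ : Measure (G K), IsFiniteMeasureOnCompacts ρ ∧
      (∀ α : Kˣ, Measure.map (fun y : G K => torK K α * y) ρ = ρ) ∧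
      ∀ F : G K → ℂ, Continuous F → HasCompactSupport F →
        (∃ C : Set (G K), IsCompact C ∧
          ∀ᵐ y ∂ρ, (∫ x, F (unip K x * y) ∂ν) ≠ 0 → y ∈ C) ∧
        ∫ h, F h ∂μ = ∫ y, (∫ x, F (unip K x * y) ∂ν) ∂ρ

/-- THE INPUT of tower T3 (all of it is output of T1). -/
structure T3In : Prop where
  locComp : InLocCompC K
  lattice : InLatticeC K
  fundDom : InFundDomC K
  discrete : InDiscreteC K
  haarScale : HaarScaleC K
  iwasawaInt : IwasawaIntC K

/-! ## Part D.  The sub-leaves, the tower Prop and the proved top -/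

/-- ALL SUB-LEAVES of tower T3 for the number field `K`.  Each leaf is an implication whose
premises are inputs from T1 or Props of this tower. -/
structure Leaves : Prop where
  /-- T3.01 (≈ 2k). -/
  goodChar : InLocCompC K → GoodCharExistsC K
  /-- T3.03 (≈ 1k; abstract annihilator lemma). -/
  perpND : InLocCompC K → InLatticeC K → PerpNDC K
  /-- T3.04 (≈ 2k; Stone--Weierstrass on `𝔸_K / K`). -/
  completeND : InLocCompC K → InLatticeC K → InFundDomC K → PerpNDC K → CompleteNDC K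
  /-- T3.05 (≈ 1k). -/
  unfold : InLocCompC K → InLatticeC K → UnfoldC K
  /-- T3.06 (≈ 1.5k). -/
  poissonND : InLocCompC K → InLatticeC K → InFundDomC K → CompleteNDC K → UnfoldC K →
    PoissonNDC K
  /-- T3.11 (≈ 2.5k). -/
  ekKill : InLocCompC K → InDiscreteC K → HaarScaleC K → IwasawaIntC K → EKKillC K
  /-- T3.12 (≈ 2k). -/
  constTerm : InLocCompC K → InLatticeC K → InFundDomC K → HaarScaleC K → ConstTermC K
  /-- T3.14 (≈ 2k). -/
  ekIdeal : InLocCompC K → InDiscreteC K → EKIdealC K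
  /-- T3.15 (≈ 1k). -/
  ekStar : InLocCompC K → InDiscreteC K → HaarScaleC K → EKStarC K
  /-- T3.18 (≈ 8k with T3.16 Satake at `v₀` and T3.17 Abel transform on `ℍ³`). -/
  ekExist : InLocCompC K → InDiscreteC K → HaarScaleC K → IwasawaIntC K → EKExistC K

/-- THE TOWER PROP of T3. -/
def T3Out : Prop :=
  GoodCharExistsC K ∧ PoissonNDC K ∧ EKCuspC K ∧ EKIdealC K ∧ EKStarC K ∧ EKExistC K

/-- The optional strong form: Poisson summation and conductors for EVERY standard character. -/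
def T3OutStrong : Prop :=
  T3Out K ∧ NonDegC K ∧ PoissonC K ∧ CondC K

/-- `unip` has the matrix required by `A0.IsCuspidalFn`. -/
theorem unip_coe (x : Adl K) :
    ((unip K x : G K) : Matrix (Fin 2) (Fin 2) (Adl K)) = !![1, x; 0, 1] := rfl

/-- `torK` has the matrix `diag(α, 1)`. -/
theorem torK_coe (α : Kˣ) :
    ((torK K α : G K) : Matrix (Fin 2) (Fin 2) (Adl K)) = !![emb K (α : K), 0; 0, 1] := rfl

/-- COROLLARY 1 from FACT 1 and the constant-term leaf. -/
theorem ekCusp_of (h1 : EKKillC K) (h2 : ConstTermC K) : EKCuspC K := by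
  intro μ hμ ν hν α f hf hfc hEK ψ hψ μ' hμ' D hD n hn g
  have hn' : n = unip K := by
    funext x
    apply Units.ext
    rw [hn x, unip_coe]
  subst hn'
  obtain ⟨Ψ, hΨc, hΨN, hΨT, hΨ⟩ := h2 μ hμ f hf hfc ψ hψ μ' hμ' D hD
  rw [hΨ g]
  exact h1 μ hμ ν hν α f hf hfc hEK Ψ hΨc hΨN (hΨT α) g

/-- A good character is a standard character. -/
theorem stdChar_of_good (h : GoodCharExistsC K) : StdCharExistsC K :=
  let ⟨ψ, hψ, _, _⟩ := h
  ⟨ψ, hψ⟩

/-- Strong approximation upgrades the non-degenerate forms to all standard characters. -/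
theorem perp_of_nd (h0 : NonDegC K) (h : PerpNDC K) : PerpC K :=
  fun ψ hψ => h ψ hψ (h0 ψ hψ)

theorem complete_of_nd (h0 : NonDegC K) (h : CompleteNDC K) : CompleteC K :=
  fun ψ hψ => h ψ hψ (h0 ψ hψ)

theorem poisson_of_nd (h0 : NonDegC K) (h : PoissonNDC K) : PoissonC K :=
  fun ψ hψ => h ψ hψ (h0 ψ hψ)

/-- THE TOP of tower T3: inputs from T1 and the sub-leaves give the tower Prop. -/
theorem top (hin : T3In K) (hl : Leaves K) : T3Out K := by
  have hperp := hl.perpND hin.locComp hin.lattice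
  have hcomp := hl.completeND hin.locComp hin.lattice hin.fundDom hperp
  have hunf := hl.unfold hin.locComp hin.lattice
  have hkill := hl.ekKill hin.locComp hin.discrete hin.haarScale hin.iwasawaInt
  have hct := hl.constTerm hin.locComp hin.lattice hin.fundDom hin.haarScale
  exact ⟨hl.goodChar hin.locComp,
    hl.poissonND hin.locComp hin.lattice hin.fundDom hcomp hunf,
    ekCusp_of K hkill hct,
    hl.ekIdeal hin.locComp hin.discrete,
    hl.ekStar hin.locComp hin.discrete hin.haarScale,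
    hl.ekExist hin.locComp hin.discrete hin.haarScale hin.iwasawaInt⟩

/-- The strong top. -/
theorem topStrong (hin : T3In K) (hl : Leaves K) (h0 : NonDegC K) (h7 : CondC K) :
    T3OutStrong K :=
  ⟨top K hin hl, h0, poisson_of_nd K h0 (top K hin hl).2.1, h7⟩

end Fermat.Agent.LT.T3

end
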