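import Fermat.Agent.LT.T3.EKSpec

/-!
# Row LT, tower T3 (architect helper14): OPERATOR FORM of the EK output (interface to T5/T4/T7)

OFF-MAIN.  `Spec.lean` (v2, sha256 44de320b8621) and `EKSpec.lean` are FROZEN; this file only adds
the operator form consumed by `T5/Spec.lean` (helper32: `T5.IsEK`, `T5.IsBorelInvariantFn`) and
the proved bridges.  No `sorry`, nothing assumed.

* `IsBorelInv Ψ`  = `T5.IsBorelInvariantFn Ψ`: continuous, left invariant under `N(𝔸_K)` and under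
  the rational diagonal matrices.
* `IsEKop μ f`    = `T5.IsEK μ f`: `R(f)` kills every `IsBorelInv` function.  NO right invariance
  of `Ψ` is assumed (in particular no invariance under the positive scalars at the infinite
  places: for `K = E` the frame of T5 is invariant under the one-dimensional ray only, so the
  central translations at infinity must be carried by the test function; `T3.IsEK` does that).
* `ekOp_of_int`   : `EKKillC K → T3.IsEK ν f α → IsEKop μ f` (PROVED).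
* `T3OutOp K`     = what T5/T7 take: good character, Poisson, `EKCuspOpC`, `EKOpExistC`.
* `topOp`         : `T3Out K → EKKillC K → ConstTermTC K → T3OutOp K` (PROVED).
-/

set_option autoImplicit false

open IsDedekindDomain NumberField MeasureTheory
open Fermat.Agent.LT.H556.A0

noncomputable section

namespace Fermat.Agent.LT.T3

variable (K : Type) [Field K] [NumberField K]

/-- Continuous functions on `GL₂(𝔸_K)`, left invariant under `N(𝔸_K)` and under the diagonal
matrices of `GL₂(K)` (the shape of a constant term; `= T5.IsBorelInvariantFn`). -/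
structure IsBorelInv (Ψ : G K → ℂ) : Prop where
  cont : Continuous Ψ
  unip : ∀ (x : Adl K) (g : G K), Ψ (unip K x * g) = Ψ g
  torus : ∀ (t : GL (Fin 2) K) (a b : K), (t : Matrix (Fin 2) (Fin 2) K) = !![a, 0; 0, b] →
    ∀ g : G K, Ψ (Matrix.GeneralLinearGroup.map (algebraMap K (Adl K)) t * g) = Ψ g

/-- Eisenstein-killing, OPERATOR FORM (`= T5.IsEK`). -/
def IsEKop {m : MeasurableSpace (G K)} (μ : Measure (G K)) (f : G K → ℂ) : Prop :=
  ∀ Ψ : G K → ℂ, IsBorelInv K Ψ → ∀ g : G K, Rop K μ f Ψ g = 0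

/-- `diag(α, 1) ∈ GL₂(K)`. -/
def torRat (α : Kˣ) : GL (Fin 2) K :=
  ⟨!![(α : K), 0; 0, 1], !![((α⁻¹ : Kˣ) : K), 0; 0, 1],
    by ext i j; fin_cases i <;> fin_cases j <;> simp [Matrix.mul_apply, Fin.sum_univ_two],
    by ext i j; fin_cases i <;> fin_cases j <;> simp [Matrix.mul_apply, Fin.sum_univ_two]⟩

theorem torK_eq_map (α : Kˣ) :
    torK K α = Matrix.GeneralLinearGroup.map (algebraMap K (Adl K)) (torRat K α) := by
  apply Units.ext
  ext i j
  fin_cases i <;> fin_cases j <;>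
    simp [torK, torRat, Matrix.GeneralLinearGroup.map, Matrix.map_apply]

/-- **T3.12'** (constant term, full rational torus; same proof as `ConstTermC`, the centre of
`GL₂(K)` commutes with `n(x)`).  The constant term of `R(f)ψ` is `R(f)Ψ` with `Ψ` of the shape
`IsBorelInv`. -/
def ConstTermTC : Prop :=
  letI : MeasurableSpace (Adl K) := borel (Adl K)
  letI : MeasurableSpace (G K) := borel (G K)
  ∀ μ : Measure (G K), μ.IsHaarMeasure →
  ∀ f : G K → ℂ, Continuous f → HasCompactSupport f →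
  ∀ ψ : G K → ℂ, IsAutFn K ψ →
  ∀ μ' : Measure (Adl K), μ'.IsAddHaarMeasure →
  ∀ D : Set (Adl K), IsAddFundamentalDomain ((algebraMap K (Adl K)).toAddMonoidHom.range) D μ' →
    ∃ Ψ : G K → ℂ, IsBorelInv K Ψ ∧
      ∀ g : G K, ∫ x in D, Rop K μ f ψ (unip K x * g) ∂μ' = Rop K μ f Ψ g

/-- **COROLLARY 1, operator form** (tower Prop).  `IsEKop μ f` implies that `R(f)ψ` is cuspidal
for every bounded continuous automorphic `ψ`. -/
def EKCuspOpC : Prop :=
  letI : MeasurableSpace (G K) := borel (G K)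
  ∀ μ : Measure (G K), μ.IsHaarMeasure →
  ∀ f : G K → ℂ, Continuous f → HasCompactSupport f → IsEKop K μ f →
  ∀ ψ : G K → ℂ, IsAutFn K ψ → IsCuspidalFn (Rop K μ f ψ)

/-- **EXISTENCE, operator form** (tower Prop): as `EKExistC`, with `IsEKop` for `f` and for
`f^*` in place of `T3.IsEK`. -/
def EKOpExistC : Prop :=
  letI : MeasurableSpace (G K) := borel (G K)
  (∀ w : InfinitePlace K, w.IsComplex) →
  ∀ μ : Measure (G K), μ.IsHaarMeasure →
  ∀ 𝔫 : Ideal (𝓞 K), 𝔫 ≠ ⊥ → ∀ v₀ : HeightOneSpectrum (𝓞 K), ¬ v₀.asIdeal ∣ 𝔫 →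
  ∀ (a₀ : 𝓞 K) (n : ℕ), 0 < n → Ideal.span {a₀} = v₀.asIdeal ^ n → a₀ - 1 ∈ 𝔫 →
    ∃ f : G K → ℂ, Continuous f ∧ HasCompactSupport f ∧
      IsEKop K μ f ∧ IsEKop K μ (starG K f) ∧
      IsBiInv K 𝔫 f ∧ IsSuppAt K 𝔫 v₀ f ∧
      ∃ c : ℂ → ℂ → ℂ,
        (∀ a b z₁ z₂ : ℂ, z₁ + z₂ = a → z₁ * z₂ = b → z₁ ^ n ≠ 1 → z₂ ^ n ≠ 1 → c a b ≠ 0) ∧
        ∀ φ : G K → ℂ, IsSph0Level K 𝔫 φ → ∀ a b : ℂ, IsHeckeEigenAt φ v₀ a b →
          ∀ g : G K, Rop K μ f φ g = c a b * φ g

/-- THE TOWER PROP of T3 in operator form (consumed by T5, T4, T7 and A2). -/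
def T3OutOp : Prop :=
  GoodCharExistsC K ∧ PoissonNDC K ∧ EKCuspOpC K ∧ EKOpExistC K

/-- FACT 1 turns the integral form into the operator form. -/
theorem ekOp_of_int (h : EKKillC K)
    {μ : @Measure (G K) (borel (G K))} (hμ : @Measure.IsHaarMeasure (G K) _ _ (borel (G K)) μ)
    {ν : @Measure (Adl K) (borel (Adl K))}
    (hν : @Measure.IsAddHaarMeasure (Adl K) _ _ (borel (Adl K)) ν)
    {α : Kˣ} {f : G K → ℂ} (hf : Continuous f) (hfc : HasCompactSupport f)
    (hEK : IsEK K ν f α) : IsEKop K μ f := by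
  intro Ψ hΨ g
  refine h μ hμ ν hν α f hf hfc hEK Ψ hΨ.cont hΨ.unip ?_ g
  intro g'
  rw [torK_eq_map]
  exact hΨ.torus (torRat K α) (α : K) 1 rfl g'

/-- COROLLARY 1 in operator form from the constant-term leaf. -/
theorem ekCuspOp_of (h2 : ConstTermTC K) : EKCuspOpC K := by
  intro μ hμ f hf hfc hEK ψ hψ μ' hμ' D hD n hn g
  have hn' : n = unip K := by
    funext x
    apply Units.ext
    rw [hn x, unip_coe]
  subst hn'
  obtain ⟨Ψ, hΨ, hΨe⟩ := h2 μ hμ f hf hfc ψ hψ μ' hμ' D hD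
  rw [hΨe g]
  exact hEK Ψ hΨ g

/-- A Haar measure of `𝔸_K` exists as soon as `𝔸_K` is locally compact (input `InLocCompC`). -/
def InAddHaarC : Prop :=
  letI : MeasurableSpace (Adl K) := borel (Adl K)
  ∃ ν : Measure (Adl K), ν.IsAddHaarMeasure

/-- Existence in operator form from existence in integral form, FACT 1 and the adjoint leaf. -/
theorem ekOpExist_of (h1 : EKKillC K) (h5 : EKStarC K) (h8 : EKExistC K) (hν : InAddHaarC K) :
    EKOpExistC K := by
  intro hK μ hμ 𝔫 h𝔫 v₀ hv₀ a₀ n hn hspan hmem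
  obtain ⟨ν, hνH⟩ := hν
  have ha₀ : algebraMap (𝓞 K) K a₀ ≠ 0 := by
    intro h0
    have h0' : a₀ = 0 := by
      have := (map_eq_zero_iff (algebraMap (𝓞 K) K)
        (FaithfulSMul.algebraMap_injective (𝓞 K) K)).1 h0
      exact this
    rw [h0'] at hspan
    have hbot : (v₀.asIdeal ^ n) = ⊥ := by rw [← hspan]; simp
    exact v₀.ne_bot (pow_eq_zero_iff (Nat.pos_iff_ne_zero.1 hn) |>.1 hbot)
  obtain ⟨f, hf, hfc, hEK, hbi, hsupp, c, hc, hact⟩ :=
    h8 hK μ hμ ν hνH 𝔫 h𝔫 v₀ hv₀ a₀ n hn hspan hmem (Units.mk0 _ ha₀) rfl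
  refine ⟨f, hf, hfc, ekOp_of_int K h1 hμ hνH hf hfc hEK, ?_, hbi, hsupp, c, hc, hact⟩
  have hstar : IsEK K ν (starG K f) (Units.mk0 _ ha₀) := h5 ν hνH _ f hf hfc hEK
  have hsc : Continuous (starG K f) := by
    unfold starG
    exact (Complex.continuous_conj).comp (hf.comp continuous_inv)
  have hscc : HasCompactSupport (starG K f) := by
    unfold starG
    have h1 : HasCompactSupport (fun h : G K => f h⁻¹) := by
      have := hfc.comp_homeomorph (Homeomorph.inv (G K))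
      simpa [Function.comp_def] using this
    exact h1.comp_left (g := (starRingEnd ℂ)) (map_zero _)
  exact ekOp_of_int K h1 hμ hνH hsc hscc hstar

/-- THE TOP in operator form. -/
theorem topOp (h : T3Out K) (h1 : EKKillC K) (h2 : ConstTermTC K) (hν : InAddHaarC K) :
    T3OutOp K :=
  ⟨h.1, h.2.1, ekCuspOp_of K h2, ekOpExist_of K h1 h.2.2.2.2.1 h.2.2.2.2.2 hν⟩

end Fermat.Agent.LT.T3

end
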