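import Fermat.Agent.LT.T3.SmoothSpec
import Fermat.Agent.LT.T3.H732.EKAlg

/-!
# Row LT, tower T3 (architect helper14): T3.18b in the smooth form, PROVED

OFF-MAIN.  Complete proof, nothing assumed.  Imports the byte-identical copies of
`H736/ASSmooth.lean` (helper736) and `H732/{EKCore,EKAlg}.lean` (helper732).

* `ekExistSmooth_of : AS.AbelSatakeSmoothC K → InScalarUnifC K → EKExistSmoothC K` (the proof of
  helper732 with one more component).
-/

set_option autoImplicit false

open IsDedekindDomain NumberField MeasureTheory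
open Fermat.Agent.LT.H556.A0

noncomputable section

namespace Fermat.Agent.LT.T3

variable (K : Type) [Field K] [NumberField K]

/-! ## T3.18b, smooth form -/

/-- **T3.18b, smooth form** (the proof of helper732 with one more component). -/
theorem ekExistSmooth_of (hAS : AS.AbelSatakeSmoothC K) (hSU : InScalarUnifC K) :
    EKExistSmoothC K := by
  intro hcplx μ hμ ν hν 𝔫 h𝔫 v₀ hv₀ a₀ n hn hspan ha₀ α hα
  obtain ⟨κ, Δ, κ₀, hκ₀, hΦall⟩ := hAS hcplx μ hμ ν hν 𝔫 h𝔫 v₀ hv₀ a₀ n hn hspan ha₀ α hα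
  obtain ⟨Φ, hΦmem, hΦsum, hΦft⟩ :=
    H732.exists_ekPhi732 (InfinitePlace K) n hn (fun w => Real.log (w (α : K)))
  obtain ⟨f, hfc, hfs, hfbi, hfsupp, hsm, hfi, hfii⟩ := hΦall Φ hΦmem
  refine ⟨f, hfc, hfs, hsm, ?_, hfbi, hfsupp, ?_⟩
  · -- `IsEK`
    intro g g'
    have h1 : (fun j : ℤ => ∫ x, f (g⁻¹ * unip K x * torK K α ^ j * g') ∂ν)
        = fun j : ℤ => κ g g' * Φ (Δ g g' + j • coordTor K n α) := by
      funext j
      exact hfi g g' j
    rw [h1]
    have h2 := (hΦsum (Δ g g')).mul_left (κ g g')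
    rw [mul_zero] at h2
    exact h2
  · -- the eigenvalue
    classical
    refine ⟨fun a b => if b = 0 then 1 else
      κ₀ * ftCoord K Φ (H732.root1_732 a b) (H732.root2_732 a b), ?_, ?_⟩
    · intro a b z₁ z₂ hs hp hz₁ hz₂
      by_cases hb : b = 0
      · simp only [if_pos hb]
        exact one_ne_zero
      · simp only [if_neg hb]
        obtain ⟨hrs, hrp⟩ := H732.roots_spec732 a b
        have hr₁ : H732.root1_732 a b ≠ 0 := fun h => hb (by rw [← hrp, h, zero_mul])
        have hr₂ : H732.root2_732 a b ≠ 0 := fun h => hb (by rw [← hrp, h, mul_zero])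
        refine mul_ne_zero hκ₀ ?_
        rcases H732.roots_unique732 (hs.trans hrs.symm) (hp.trans hrp.symm) with
          ⟨e1, e2⟩ | ⟨e1, e2⟩
        · exact hΦft _ _ hr₁ hr₂ (by rw [e1]; exact hz₁) (by rw [e2]; exact hz₂)
        · exact hΦft _ _ hr₁ hr₂ (by rw [e1]; exact hz₂) (by rw [e2]; exact hz₁)
    · intro φ hφ a b hecke g
      by_cases hb : b = 0
      · simp only [if_pos hb, one_mul]
        subst hb
        have hzero : ∀ g : G K, φ g = 0 := H732.eq_zero_of_b_eq_zero732 K hSU hecke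
        rw [hzero g]
        unfold Rop
        simp only [hzero, zero_mul, integral_zero]
      · simp only [if_neg hb]
        obtain ⟨hrs, hrp⟩ := H732.roots_spec732 a b
        exact hfii φ hφ a b _ _ hecke hrs hrp hb g

end Fermat.Agent.LT.T3

end
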