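import Fermat.Agent.LT.T3.OpSpec
import Fermat.Agent.LT.T1.Spec
import Fermat.Agent.LT.T3.H59.Unfold
import Fermat.Agent.LT.T3.H276.GoodChar
import Fermat.Agent.LT.T3.H57.Leaves
import Fermat.Agent.LT.T3.H237.ConstTerm
import Fermat.Agent.LT.T3.H354.HaarScale
import Fermat.Agent.LT.T3.H904.EKStarV2
import Fermat.Agent.LT.T3.H893.EKKill
import Fermat.Agent.LT.T3.H465.EKIdealClosed
import Fermat.Agent.LT.T3.H315.ConstTermT
import Fermat.Agent.LT.T3.H732.EKAlg
import Fermat.Agent.LT.T3.SmoothTop
import Fermat.Agent.LT.T3.H57.ROp
import Fermat.Agent.LT.T3.H245.PureReg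
import Fermat.Agent.LT.T3.H263.SatakeLoc
import Fermat.Agent.LT.T3.H736.ASRegSmooth
import Fermat.Agent.LT.T3.H315.AbelClosed
import Fermat.Agent.LT.T3.H174.Calc
import Fermat.Agent.LT.T3.H984.WhitneyTop
import Fermat.Agent.LT.T3.H893.NIntTop
import Fermat.Agent.LT.T3.H543.IwasawaForm
import Fermat.Agent.LT.T3.H846.PureUpper
import Fermat.Agent.LT.T3.H162.Affine
import Fermat.Agent.LT.T3.H848.LocValFin
import Fermat.Agent.LT.T3.H800.LocValInf
import Fermat.Agent.LT.T3.H915.ProdForm
import Fermat.Agent.LT.T3.H922.OutsideCoset
import Fermat.Agent.LT.H129.SplitClosed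

/-!
# Row LT, tower T3 (helper14, architect): INTEGRATION of the closed leaves

OFF-MAIN.  Pattern of `LT/T1/Closed.lean` (helper54).  Imports byte-identical copies of the
volunteers' files and discharges the closed leaves of tower T3.

| leaf | Prop | closed by |
|---|---|---|
| T3.01 | `GoodCharExistsC` | helper276 `leaf_goodChar276` |
| T3.03 | `PerpNDC` | helper57 `perpND57` |
| T3.04 | `CompleteNDC` | helper57 `completeND57` (spare: helper622) |
| T3.05 | `UnfoldC` | helper59 `unfoldC59` |
| T3.06 | `PoissonNDC` | helper57 `poissonND57` (spare: helper543) |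
| T3.11 | `EKKillC` | helper893 `ekKillC_of893` |
| T3.12 | `ConstTermC` | helper237 `constTerm237` |
| T3.12b | `ConstTermTC` | helper315 `constTermT315` |
| T3.14 | `EKIdealC` | helper465 `ekIdealC465` |
| T3.15 | `EKStarC` | helper904 `ekStar_v2` |
| T3.18b | `LeafEKAlg` | helper732 `leafEKAlg732` |
| T3.21 | `HaarScaleC` | helper354 `haarScaleC_of` (spares: helper254, helper237, helper904) |

INPUT: `T1.T1Out K` (only the fields `locComp`, `adeleLattice`, `addFundDom`, `discrete`,
`heckeCoset` are used).  `IwasawaIntC` (T3.22) is NOT needed any more: helper893 proved FACT 1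
with a Bruhat function instead of the Iwasawa integration formula.

`IwasawaIntC` is nevertheless PROVED (spares: helper57, helper132, helper175, helper67).

| T3.18a top | `AbelSatakeC` from AS.1-5 | helper736 `AS.abelSatake_of` |
| AS.1 | `AS.SatakeLocC` | helper263 `satakeLocC263` (on `T6/H305` of helper305, `T6/H176` of helper176) |
| AS.2s | `AS.AbelCplxSmoothC` | helper736 `AS.abelCplxSmooth_of736` on: Whitney helper984, RegC helper811, NIntC helper157, SphContC helper166, AvgC helper694 / helper203 / helper572, IwaC helper315, CalcC helper174 (cut of helper315; spare route closed by helper893) |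
| AS.3 | `AS.PureRegC` | helper245 `pureReg245` |
| AS.4 top | `AS.NIntC` from N.1-N.8 | helper893 `AS.N893.nIntC_of893` |
| N.1, N.2, N.4, N.6, N.7, N.8 | sub-leaves of AS.4 | helper543, helper846, helper162, helper848, helper800, helper915 |
| N.3 | `AS.N893.OutsideCosetC` | helper922 `outsideCosetC922` |
| N.5 | `AS.N893.SplitC` | helper129 `splitC129` (cut: helper497, helper322, helper250, helper904, helper800) |
| AS.5 | `AS.ROpC` | helper57 `rOpC57` (cut of helper910: 6 of 7 sub-leaves) |
| AS.3s | the pure tensor is smooth | helper736 `AS.pureSmooth` |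
| T3.18a top, smooth | `AS.AbelSatakeSmoothC` from AS.1, AS.2s, AS.3-5 | helper736 `AS.abelSatakeSmooth_of` |
| T3.18b, smooth | `EKExistSmoothC` | helper14 `ekExistSmooth_of` (proof of helper732) |

STATE: **TOWER T3 IS CLOSED relative to `T1.T1Out K`** (and `T1.t1Out K` is proved: see
`ClosedT1.lean` for the unconditional statements).

* `top_closed : T1.T1Out K → T3Out K`,
* `topOp_closed : T1.T1Out K → T3OutOp K`,
* `topOpSmooth_closed : T1.T1Out K → T3OutOpSmooth K` (test functions smooth at infinity: what
  T2 / T5 consume).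
`Open K` (kept for compatibility) has no field left that is not proved: `open_closed : Open K`.
-/

set_option autoImplicit false
set_option linter.style.haveILetI false

open IsDedekindDomain NumberField MeasureTheory
open Fermat.Agent.LT.H556.A0

noncomputable section

namespace Fermat.Agent.LT.T3

variable (K : Type) [Field K] [NumberField K]

/-! ## Adapters from the interface of T1 -/

theorem inLocComp_of_T1 (h : T1.LocCompC K) : InLocCompC K := h

theorem inLattice_of_T1 (h : T1.AdeleLatticeC K) : InLatticeC K := h

theorem inFundDom_of_T1 (h : T1.AddFundDomC K) : InFundDomC K := h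

theorem inDiscrete_of_T1 (h : T1.DiscreteC K) : InDiscreteC K := h

theorem inScalarUnif_of_T1 (h : T1.HeckeCosetC K) : InScalarUnifC K :=
  fun v => (h v).2.2

/-- A Haar measure of `𝔸_K` exists. -/
theorem inAddHaar_of_T1 (h : T1.LocCompC K) : InAddHaarC K := by
  letI : MeasurableSpace (Adl K) := borel (Adl K)
  haveI : BorelSpace (Adl K) := ⟨rfl⟩
  obtain ⟨⟨h1, h2, h3⟩, -⟩ := h
  haveI := h1
  haveI := h2
  haveI := h3
  exact ⟨Measure.addHaar, inferInstance⟩

/-! ## The state of the tower -/

/-- THE OPEN PART of tower T3: the leaves still to be proved (two sub-leaves of AS.4 `NIntC`,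
cut of helper893). -/
structure Open : Prop where
  /-- N.3 (registry 1365). -/
  outsideCoset : T1.T1Out K → AS.N893.OutsideCosetC K
  /-- N.5 (registry 1367). -/
  split : T1.T1Out K → AS.N893.SplitC K

/-- The open part is empty: N.3 (helper922) and N.5 (helper129) are proved. -/
theorem open_closed : Open K :=
  ⟨fun _ => H922.outsideCosetC922 K, fun _ => H129.splitC129 K⟩

/-- AS.1 closed (helper263). -/
theorem satakeLoc_closed : AS.SatakeLocC K := H263.satakeLocC263 K

/-- AS.2s closed (cut of helper315, smooth form of helper736, Whitney of helper984). -/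
theorem abelCplxSmooth_closed : AS.AbelCplxSmoothC :=
  AS.abelCplxSmooth_of736 H984.whitneySinhC_984 H811.regC811 H157.nIntC157 H166.sphContC166
    H315.avgC_closed315 H315.iwaC315 (H174.calcC_of_reg174 H811.regC811)

/-- AS.3 closed (helper245). -/
theorem pureReg_closed : AS.PureRegC K := H245.pureReg245 K

/-- AS.5 closed (helper57). -/
theorem rOp_closed : AS.ROpC K := H57.rOpC57 K

/-- AS.4 from its two open sub-leaves (top of helper893). -/
theorem nInt_of_open (h : T1.T1Out K) (O : Open K) : AS.NIntC K :=
  AS.N893.nIntC_of893 K (H543.iwasawaFormC_of_h543 K h.iwasawa) (AS.N893.H846.pureUpperC846 K)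
    (O.outsideCoset h) (H162.affineC162 K h.locComp) (O.split h) H848.locValFinC848
    (H800.locValInfC800 K) (H915.prodFormC915 K)

/-- The station T3.18a from the open leaves. -/
theorem abelSatake_of_open (h : T1.T1Out K) (O : Open K) : AbelSatakeC K :=
  AS.abelSatake_of K (satakeLoc_closed K) (AS.abelCplx_of_smooth abelCplxSmooth_closed)
    (pureReg_closed K) (nInt_of_open K h O) (rOp_closed K)

/-- The station T3.18a, smooth form, from the open leaves. -/
theorem abelSatakeSmooth_of_open (h : T1.T1Out K) (O : Open K) : AS.AbelSatakeSmoothC K :=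
  AS.abelSatakeSmooth_of K (satakeLoc_closed K) abelCplxSmooth_closed (pureReg_closed K)
    (nInt_of_open K h O) (rOp_closed K)

/-- `HaarScaleC` closed (helper354). -/
theorem haarScale_closed (h : T1.T1Out K) : HaarScaleC K :=
  H354.haarScaleC_of K (inLocComp_of_T1 K h.locComp) (inFundDom_of_T1 K h.addFundDom)

/-- `EKKillC` closed (helper893). -/
theorem ekKill_closed (h : T1.T1Out K) : EKKillC K :=
  H893.ekKillC_of893 K h.locComp h.adeleLattice h.addFundDom

/-- `PoissonNDC` closed (helper57, helper59). -/
theorem poissonND_closed (h : T1.T1Out K) : PoissonNDC K := by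
  have hL := inLocComp_of_T1 K h.locComp
  have hA := inLattice_of_T1 K h.adeleLattice
  have hF := inFundDom_of_T1 K h.addFundDom
  exact H57.poissonND57 K hL hA hF
    (H57.completeND57 K hL hA hF (H57.perpND57 K hL hA)) (H59.unfoldC59 K)

/-- `EKCuspC` closed (helper893, helper237). -/
theorem ekCusp_closed (h : T1.T1Out K) : EKCuspC K :=
  ekCusp_of K (ekKill_closed K h)
    (H237.constTerm237 K (inLocComp_of_T1 K h.locComp) (inLattice_of_T1 K h.adeleLattice)
      (inFundDom_of_T1 K h.addFundDom) (haarScale_closed K h))

/-- `EKStarC` closed (helper904). -/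
theorem ekStar_closed (h : T1.T1Out K) : EKStarC K :=
  H904.ekStar_v2 K (inLocComp_of_T1 K h.locComp) (inDiscrete_of_T1 K h.discrete)
    (haarScale_closed K h)

/-- STATE OF THE TOWER (integral form): the open leaves give `T3Out K`. -/
theorem top_of_open (h : T1.T1Out K) (O : Open K) : T3Out K :=
  ⟨H276.leaf_goodChar276 K (inLocComp_of_T1 K h.locComp),
    poissonND_closed K h,
    ekCusp_closed K h,
    H465.ekIdealC465 K,
    ekStar_closed K h,
    ekExist_of K (abelSatake_of_open K h O) (H732.leafEKAlg732 K)
      (inScalarUnif_of_T1 K h.heckeCoset)⟩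

/-- `ConstTermTC` closed (helper315). -/
theorem constTermT_closed (h : T1.T1Out K) : ConstTermTC K :=
  H315.constTermT315 K (inLocComp_of_T1 K h.locComp) (inLattice_of_T1 K h.adeleLattice)
    (inFundDom_of_T1 K h.addFundDom) (haarScale_closed K h)

/-- STATE OF THE TOWER (operator form): the open leaves give `T3OutOp K`. -/
theorem topOp_of_open (h : T1.T1Out K) (O : Open K) : T3OutOp K :=
  topOp K (top_of_open K h O) (ekKill_closed K h) (constTermT_closed K h)
    (inAddHaar_of_T1 K h.locComp)

/-- STATE OF THE TOWER (operator form, SMOOTH test functions; the interface to T2 / T5 / T7):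
the open leaves give `T3OutOpSmooth K`. -/
theorem topOpSmooth_of_open (h : T1.T1Out K) (O : Open K) : T3OutOpSmooth K :=
  topOpSmooth K (top_of_open K h O) (ekKill_closed K h) (constTermT_closed K h)
    (ekExistSmooth_of K (abelSatakeSmooth_of_open K h O) (inScalarUnif_of_T1 K h.heckeCoset))
    (inAddHaar_of_T1 K h.locComp)

/-! ## THE TOWER IS CLOSED -/

/-- AS.4 closed. -/
theorem nInt_closed (h : T1.T1Out K) : AS.NIntC K := nInt_of_open K h (open_closed K)

/-- The station T3.18a, smooth form, closed. -/
theorem abelSatakeSmooth_closed (h : T1.T1Out K) : AS.AbelSatakeSmoothC K :=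
  abelSatakeSmooth_of_open K h (open_closed K)

/-- TOWER T3, integral form. -/
theorem top_closed (h : T1.T1Out K) : T3Out K := top_of_open K h (open_closed K)

/-- TOWER T3, operator form. -/
theorem topOp_closed (h : T1.T1Out K) : T3OutOp K := topOp_of_open K h (open_closed K)

/-- TOWER T3, operator form, smooth test functions. -/
theorem topOpSmooth_closed (h : T1.T1Out K) : T3OutOpSmooth K :=
  topOpSmooth_of_open K h (open_closed K)

end Fermat.Agent.LT.T3

end
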