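import Fermat.Agent.LT.T3.SmoothSpec
import Fermat.Agent.LT.T5.Spec

/-!
# Row LT, tower T3 (architect helper14): the output of T3 in the vocabulary of T5

OFF-MAIN.  Complete proofs, nothing assumed.  `T5/Spec.lean` = v4 of helper32 (byte-identical copy,
sha256 f2d97e70548f; `IsBorelInvariantFn` with the field `ray`, ruling R2 of the chief).

* `isBorelInv_of_T5`   : `T5.IsBorelInvariantFn Ψ → T3.IsBorelInv K Ψ` (the class of T5 is SMALLER).
* `isEK_T5`            : `T3.IsEKop K μ f → T5.IsEK μ f` (so T3 delivers MORE than T5 asks; no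
  averaging over `A_∞ / ⟨r⟩` is needed).
* `isTestFn_T5`        : a continuous, compactly supported, smooth, bi-invariant function is a
  test function of T5 of trivial `K_∞`-type.
* `exists_testFn_T5`   : `EKOpExistSmoothC K` in the vocabulary of T5: for `K` totally complex,
  `(a₀) = 𝔭_{v₀}ⁿ`, `a₀ ≡ 1 mod 𝔫`, there is `f` with `T5.IsTestFn 𝔫 trivType f`, `T5.IsEK μ f`,
  `T5.IsEK μ (T5.adjointFn f)`, supported at `{v₀} ∪ S_∞`, acting on the spherical Hecke
  eigenfunctions of parameter `0` by `c(a,b)`, `c(a,b) ≠ 0` when `z₁ⁿ ≠ 1 ≠ z₂ⁿ`.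
-/

set_option autoImplicit false

open IsDedekindDomain NumberField MeasureTheory
open Fermat.Agent.LT.H556.A0

noncomputable section

namespace Fermat.Agent.LT.T3

variable (K : Type) [Field K] [NumberField K]

theorem isBorelInv_of_T5 {Ψ : G K → ℂ} (h : T5.IsBorelInvariantFn Ψ) : IsBorelInv K Ψ where
  cont := h.cont
  unip := fun x g => h.unip (unip K x) x (unip_coe K x) g
  torus := fun t a b ht g => h.torus t a b ht g

theorem isEK_T5 {μ : @Measure (G K) (borel (G K))} {f : G K → ℂ} (h : IsEKop K μ f) :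
    T5.IsEK μ f := by
  intro Ψ hΨ x
  have := h Ψ (isBorelInv_of_T5 K hΨ) x
  unfold Rop at this
  unfold T5.Rconv
  rw [← this]
  refine integral_congr_ae (Filter.Eventually.of_forall fun y => ?_)
  exact mul_comm _ _

theorem adjointFn_T5 (f : G K → ℂ) : T5.adjointFn f = starG K f := rfl

theorem isTestFn_T5 {𝔫 : Ideal (𝓞 K)} {f : G K → ℂ} (h1 : Continuous f)
    (h2 : HasCompactSupport f) (h3 : AS.IsSmoothInf K f) (h4 : IsBiInv K 𝔫 f) :
    T5.IsTestFn 𝔫 T5.trivType f where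
  ktype := T5.isKType_triv
  cont := h1
  supp := h2
  smooth := h3
  inv :=
    { level_right := fun u hu g => (h4.1 u hu g).2
      level_left := fun u hu g => (h4.1 u hu g).1
      arch_right := fun w k hk g => by
        rw [(h4.2 w k hk g).2]
        simp [T5.trivType]
      arch_left := fun w k hk g => by
        rw [(h4.2 w k hk g).1]
        simp [T5.trivType] }

/-- **The output of T3 for T5 / T7**: existence of an Eisenstein-killing test function of T5. -/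
theorem exists_testFn_T5 (h : EKOpExistSmoothC K) (hK : ∀ w : InfinitePlace K, w.IsComplex)
    (μ : @Measure (G K) (borel (G K)))
    (hμ : @Measure.IsHaarMeasure (G K) _ _ (borel (G K)) μ)
    (𝔫 : Ideal (𝓞 K)) (h𝔫 : 𝔫 ≠ ⊥) (v₀ : HeightOneSpectrum (𝓞 K)) (hv₀ : ¬ v₀.asIdeal ∣ 𝔫)
    (a₀ : 𝓞 K) (n : ℕ) (hn : 0 < n) (hspan : Ideal.span {a₀} = v₀.asIdeal ^ n)
    (hmem : a₀ - 1 ∈ 𝔫) :
    ∃ f : G K → ℂ, T5.IsTestFn 𝔫 T5.trivType f ∧ T5.IsEK μ f ∧ T5.IsEK μ (T5.adjointFn f) ∧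
      IsSuppAt K 𝔫 v₀ f ∧
      ∃ c : ℂ → ℂ → ℂ,
        (∀ a b z₁ z₂ : ℂ, z₁ + z₂ = a → z₁ * z₂ = b → z₁ ^ n ≠ 1 → z₂ ^ n ≠ 1 → c a b ≠ 0) ∧
        ∀ φ : G K → ℂ, IsSph0Level K 𝔫 φ → ∀ a b : ℂ, IsHeckeEigenAt φ v₀ a b →
          ∀ g : G K, T5.Rconv μ f φ g = c a b * φ g := by
  obtain ⟨f, h1, h2, h3, h4, h5, h6, h7, c, hc, hact⟩ :=
    h hK μ hμ 𝔫 h𝔫 v₀ hv₀ a₀ n hn hspan hmem
  refine ⟨f, isTestFn_T5 K h1 h2 h3 h6, isEK_T5 K h4, isEK_T5 K h5, h7, c, hc, ?_⟩
  intro φ hφ a b he g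
  rw [← hact φ hφ a b he g]
  unfold Rop T5.Rconv
  refine integral_congr_ae (Filter.Eventually.of_forall fun y => ?_)
  exact mul_comm _ _

end Fermat.Agent.LT.T3

end
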