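import Fermat.Agent.LT.T3.Closed
import Fermat.Agent.LT.T3.BridgeT5
import Fermat.Agent.LT.T1.Closed

/-!
# Row LT, tower T3 (helper14, architect): the state of T3 on the CLOSED tower T1

OFF-MAIN.  Complete proofs, nothing assumed.  Imports `LT/T1/Closed.lean` of helper54
(origin/helper54@272e43fd2, `T1.t1Out K : T1.T1Out K` UNCONDITIONAL; byte-identical copies of the
72 files, rebuilt here) and discharges the hypothesis `T1.T1Out K` of `T3/Closed.lean`.

UNCONDITIONAL (every number field `K`): `goodChar_u`, `poissonND_u`, `ekKill_u`, `ekCusp_u`,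
`ekIdeal_u`, `ekStar_u`, `constTermT_u`, `ekCuspOp_u`, `haarScale_u`.

**TOWER T3 IS CLOSED, UNCONDITIONALLY** (every number field `K`):
`t3Out K : T3Out K`, `t3OutOp K : T3OutOp K`, `t3OutOpSmooth K : T3OutOpSmooth K`,
`ekExistSmooth_c K : EKExistSmoothC K`, `abelSatakeSmooth_c K : AS.AbelSatakeSmoothC K`, and
`exists_testFn_T5_c` (the Eisenstein-killing test function in the vocabulary of T5 Spec v4).
(`OpenU K`, `t3Out_u`, … are kept for compatibility; `openU_closed : OpenU K`.)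
-/

set_option autoImplicit false

open IsDedekindDomain NumberField MeasureTheory
open Fermat.Agent.LT.H556.A0

noncomputable section

namespace Fermat.Agent.LT.T3

variable (K : Type) [Field K] [NumberField K]

/-! ## Unconditional -/

theorem goodChar_u : GoodCharExistsC K :=
  H276.leaf_goodChar276 K (inLocComp_of_T1 K (T1.t1Out K).locComp)

theorem haarScale_u : HaarScaleC K := haarScale_closed K (T1.t1Out K)

theorem poissonND_u : PoissonNDC K := poissonND_closed K (T1.t1Out K)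

theorem ekKill_u : EKKillC K := ekKill_closed K (T1.t1Out K)

theorem ekCusp_u : EKCuspC K := ekCusp_closed K (T1.t1Out K)

theorem ekIdeal_u : EKIdealC K := H465.ekIdealC465 K

theorem ekStar_u : EKStarC K := ekStar_closed K (T1.t1Out K)

theorem constTermT_u : ConstTermTC K := constTermT_closed K (T1.t1Out K)

theorem ekCuspOp_u : EKCuspOpC K := ekCuspOp_of K (constTermT_u K)

theorem inScalarUnif_u : InScalarUnifC K := inScalarUnif_of_T1 K (T1.t1Out K).heckeCoset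

theorem inAddHaar_u : InAddHaarC K := inAddHaar_of_T1 K (T1.t1Out K).locComp

/-! ## Relative to the two open sub-leaves of AS.4 -/

/-- THE OPEN PART of tower T3, unconditional form. -/
structure OpenU : Prop where
  /-- N.3 (registry 1365). -/
  outsideCoset : AS.N893.OutsideCosetC K
  /-- N.5 (registry 1367). -/
  split : AS.N893.SplitC K

theorem OpenU.toOpen {K : Type} [Field K] [NumberField K] (O : OpenU K) : Open K :=
  ⟨fun _ => O.outsideCoset, fun _ => O.split⟩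

theorem Open.toOpenU {K : Type} [Field K] [NumberField K] (O : Open K) : OpenU K :=
  ⟨O.outsideCoset (T1.t1Out K), O.split (T1.t1Out K)⟩

theorem nInt_u (O : OpenU K) : AS.NIntC K := nInt_of_open K (T1.t1Out K) O.toOpen

theorem abelSatakeSmooth_u (O : OpenU K) : AS.AbelSatakeSmoothC K :=
  abelSatakeSmooth_of_open K (T1.t1Out K) O.toOpen

theorem ekExistSmooth_u (O : OpenU K) : EKExistSmoothC K :=
  ekExistSmooth_of K (abelSatakeSmooth_u K O) (inScalarUnif_u K)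

theorem t3Out_u (O : OpenU K) : T3Out K := top_of_open K (T1.t1Out K) O.toOpen

theorem t3OutOp_u (O : OpenU K) : T3OutOp K := topOp_of_open K (T1.t1Out K) O.toOpen

theorem t3OutOpSmooth_u (O : OpenU K) : T3OutOpSmooth K :=
  topOpSmooth_of_open K (T1.t1Out K) O.toOpen

/-- The Eisenstein-killing test function in the vocabulary of T5 (Spec v4). -/
theorem exists_testFn_T5_u (O : OpenU K) (hK : ∀ w : InfinitePlace K, w.IsComplex)
    (μ : @Measure (G K) (borel (G K)))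
    (hμ : @Measure.IsHaarMeasure (G K) _ _ (borel (G K)) μ)
    (𝔫 : Ideal (𝓞 K)) (h𝔫 : 𝔫 ≠ ⊥) (v₀ : HeightOneSpectrum (𝓞 K)) (hv₀ : ¬ v₀.asIdeal ∣ 𝔫)
    (a₀ : 𝓞 K) (n : ℕ) (hn : 0 < n) (hspan : Ideal.span {a₀} = v₀.asIdeal ^ n)
    (hmem : a₀ - 1 ∈ 𝔫) :
    ∃ f : G K → ℂ, T5.IsTestFn 𝔫 T5.trivType f ∧ T5.IsEK μ f ∧ T5.IsEK μ (T5.adjointFn f) ∧
      IsSuppAt K 𝔫 v₀ f ∧
      ∃ c : ℂ → ℂ → ℂ,
        (∀ a b z₁ z₂ : ℂ, z₁ + z₂ = a → z₁ * z₂ = b → z₁ ^ n ≠ 1 → z₂ ^ n ≠ 1 → c a b ≠ 0) ∧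
        ∀ φ : G K → ℂ, IsSph0Level K 𝔫 φ → ∀ a b : ℂ, IsHeckeEigenAt φ v₀ a b →
          ∀ g : G K, T5.Rconv μ f φ g = c a b * φ g :=
  exists_testFn_T5 K (t3OutOpSmooth_u K O).2.2.2 hK μ hμ 𝔫 h𝔫 v₀ hv₀ a₀ n hn hspan hmem

/-! ## THE TOWER IS CLOSED -/

theorem openU_closed : OpenU K := (open_closed K).toOpenU

/-- **TOWER T3 (integral form), UNCONDITIONAL.** -/
theorem t3Out : T3Out K := t3Out_u K (openU_closed K)

/-- **TOWER T3 (operator form), UNCONDITIONAL.** -/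
theorem t3OutOp : T3OutOp K := t3OutOp_u K (openU_closed K)

/-- **TOWER T3 (operator form, smooth test functions), UNCONDITIONAL.** -/
theorem t3OutOpSmooth : T3OutOpSmooth K := t3OutOpSmooth_u K (openU_closed K)

/-- The station T3.18a in the smooth form, UNCONDITIONAL. -/
theorem abelSatakeSmooth_c : AS.AbelSatakeSmoothC K := abelSatakeSmooth_u K (openU_closed K)

/-- T3.18 in the smooth form, UNCONDITIONAL. -/
theorem ekExistSmooth_c : EKExistSmoothC K := ekExistSmooth_u K (openU_closed K)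

/-- T3.18, UNCONDITIONAL. -/
theorem ekExist_c : EKExistC K := ekExist_of_smooth K (ekExistSmooth_c K)

/-- **The Eisenstein-killing test function in the vocabulary of T5 (Spec v4), UNCONDITIONAL.** -/
theorem exists_testFn_T5_c (hK : ∀ w : InfinitePlace K, w.IsComplex)
    (μ : @Measure (G K) (borel (G K)))
    (hμ : @Measure.IsHaarMeasure (G K) _ _ (borel (G K)) μ)
    (𝔫 : Ideal (𝓞 K)) (h𝔫 : 𝔫 ≠ ⊥) (v₀ : HeightOneSpectrum (𝓞 K)) (hv₀ : ¬ v₀.asIdeal ∣ 𝔫)
    (a₀ : 𝓞 K) (n : ℕ) (hn : 0 < n) (hspan : Ideal.span {a₀} = v₀.asIdeal ^ n)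
    (hmem : a₀ - 1 ∈ 𝔫) :
    ∃ f : G K → ℂ, T5.IsTestFn 𝔫 T5.trivType f ∧ T5.IsEK μ f ∧ T5.IsEK μ (T5.adjointFn f) ∧
      IsSuppAt K 𝔫 v₀ f ∧
      ∃ c : ℂ → ℂ → ℂ,
        (∀ a b z₁ z₂ : ℂ, z₁ + z₂ = a → z₁ * z₂ = b → z₁ ^ n ≠ 1 → z₂ ^ n ≠ 1 → c a b ≠ 0) ∧
        ∀ φ : G K → ℂ, IsSph0Level K 𝔫 φ → ∀ a b : ℂ, IsHeckeEigenAt φ v₀ a b →
          ∀ g : G K, T5.Rconv μ f φ g = c a b * φ g :=
  exists_testFn_T5_u K (openU_closed K) hK μ hμ 𝔫 h𝔫 v₀ hv₀ a₀ n hn hspan hmem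

end Fermat.Agent.LT.T3

end
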