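import Fermat.Agent.LT.T3.Spec

/-!
# Row LT, tower T3 (architect helper14): the cut of `EKExistC` (T3.18)

OFF-MAIN.  Definitions and frozen Props only; no `sorry`, nothing assumed.

`EKExistC K` (Spec.lean) is cut into

* `AbelSatakeC K` (T3.18a, STATION): the Abel--Satake transform pair at `S' = {v₀} ∪ S_∞`, in
  coordinates.  For every `Φ` in the span of the symmetric pure tensors on the coordinate group
  `Coord K = ℤ² × (ℝ²)^{S_∞}` there is a test function `f_Φ` on `GL₂(𝔸_K)`, bi-invariant under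
  `U(𝔫) K_∞`, supported at `S'`, such that
  (i)  `∫_{𝔸_K} f_Φ(g⁻¹ n(x) γ₀ʲ g') dx = κ(g,g') Φ(Δ(g,g') + j c₀)` for all `g, g', j`
       (`c₀` = coordinates of `γ₀ = diag(α,1)`; `κ, Δ` do not depend on `Φ`), and
  (ii) `R(f_Φ) φ = κ₀ Φ^(z₁,z₂) φ` for every `φ` spherical of parameter `0` of level `𝔫` which is
       Hecke-eigen at `v₀` with Satake parameters `z₁, z₂`.
  Content: `f_Φ = (Hecke function at v₀ with Satake transform A) ⊗ ⊗_w F_w ⊗ 1_{U^{S'}}`, `F_w` the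
  inverse Abel transform of `β_w` on `GL₂(ℂ)`:
  `F_w(x) = -∂_u β̃_w(d(x), log|det x|) / (2π sinh d(x))`, `cosh d(x) = tr(x x*) / (2 |det x|)`.
* `LeafEKAlg K` (T3.18b): `AbelSatakeC K → (scalar uniformisers exist) → EKExistC K`; pure algebra:
  `Φ = ∏_{c ∈ W'·c₀} (1 - τ_c) Φ₁` telescopes along `c₀` and has
  `Φ^(z₁,z₂) = [(1 - z₁ⁿ)(1 - z₂ⁿ)]^{2^{r₂}} Φ₁^`.

Conventions.  Coordinates of a diagonal element `a = diag(a₁, a₂)`: `m_i = v₀(a_i)` at `v₀`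
(so a uniformiser has coordinate `1`), `x_w = (log |a₁|_w, log |a₂|_w)` at the complex place `w`
(`|·|_w` the usual absolute value).  `(𝒮f)(a) = δ(a)^{-1/2} ∫_N f(na) dn`,
`δ(a) = ‖a₁/a₂‖`.  Check on `f = 1_{K diag(ϖ,1) K}`: `𝒮f = √q (δ_{(1,0)} + δ_{(0,1)})`,
`R(f)φ = T_{v₀}φ = √q (z₁ + z₂) φ` (`A0.IsHeckeEigenAt`).
-/

set_option autoImplicit false

open IsDedekindDomain NumberField MeasureTheory
open Fermat.Agent.LT.H556.A0

noncomputable section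

namespace Fermat.Agent.LT.T3

variable (K : Type) [Field K] [NumberField K]

/-- The coordinate group of the torus at `S' = {v₀} ∪ S_∞` modulo its maximal compact subgroup:
`ℤ² × (ℝ²)^{S_∞}`. -/
abbrev Coord : Type := (ℤ × ℤ) × (InfinitePlace K → ℝ × ℝ)

/-- The coordinates `c₀` of `γ₀ = diag(α, 1)` when `(α) = 𝔭_{v₀}ⁿ`:
`((n, 0), w ↦ (log |α|_w, 0))`. -/
def coordTor (n : ℕ) (α : Kˣ) : Coord K :=
  (((n : ℤ), 0), fun w => (Real.log (w (α : K)), 0))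

/-- A symmetric pure tensor on `Coord K`: `Φ(m, x) = A(m) ∏_w β_w(x_w)` with `A` finitely
supported and symmetric, `β_w` smooth, compactly supported and symmetric. -/
def IsSymPure (Φ : Coord K → ℂ) : Prop :=
  ∃ (A : ℤ × ℤ → ℂ) (β : InfinitePlace K → ℝ × ℝ → ℂ),
    (Function.support A).Finite ∧ (∀ m₁ m₂ : ℤ, A (m₁, m₂) = A (m₂, m₁)) ∧
    (∀ w : InfinitePlace K, ContDiff ℝ ((⊤ : ℕ∞) : WithTop ℕ∞) (β w) ∧
      HasCompactSupport (β w) ∧ ∀ x y : ℝ, β w (x, y) = β w (y, x)) ∧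
    ∀ (m : ℤ × ℤ) (x : InfinitePlace K → ℝ × ℝ), Φ (m, x) = A m * ∏ w, β w (x w)

/-- The span of the symmetric pure tensors. -/
def SymSpan : Submodule ℂ (Coord K → ℂ) :=
  Submodule.span ℂ {Φ | IsSymPure K Φ}

/-- The Fourier--Laplace transform of `Φ` at the character of the torus which is unramified with
Satake parameters `(z₁, z₂)` at `v₀` and trivial at the infinite places:
`Φ^(z₁,z₂) = ∑_{m ∈ ℤ²} (∫ Φ(m, x) dx) z₁^{m₁} z₂^{m₂}` (Lebesgue measure on `(ℝ²)^{S_∞}`). -/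
def ftCoord (Φ : Coord K → ℂ) (z₁ z₂ : ℂ) : ℂ :=
  ∑ᶠ m : ℤ × ℤ, (∫ x : InfinitePlace K → ℝ × ℝ, Φ (m, x)) * z₁ ^ m.1 * z₂ ^ m.2

/-- **T3.18a = ABEL--SATAKE PAIR** (STATION; Satake: Cartier, Corvallis I §4, Bump §4.6;
Abel transform on `ℍ³`: Helgason GGA Ch. IV, Lindenstrauss--Venkatesh §4; memo helper261 §0
(S1),(S2)).  See the header for the content. -/
def AbelSatakeC : Prop :=
  letI : MeasurableSpace (Adl K) := borel (Adl K)
  letI : MeasurableSpace (G K) := borel (G K)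
  (∀ w : InfinitePlace K, w.IsComplex) →
  ∀ μ : Measure (G K), μ.IsHaarMeasure → ∀ ν : Measure (Adl K), ν.IsAddHaarMeasure →
  ∀ 𝔫 : Ideal (𝓞 K), 𝔫 ≠ ⊥ → ∀ v₀ : HeightOneSpectrum (𝓞 K), ¬ v₀.asIdeal ∣ 𝔫 →
  ∀ (a₀ : 𝓞 K) (n : ℕ), 0 < n → Ideal.span {a₀} = v₀.asIdeal ^ n → a₀ - 1 ∈ 𝔫 →
  ∀ α : Kˣ, (α : K) = algebraMap (𝓞 K) K a₀ →
    ∃ (κ : G K → G K → ℂ) (Δ : G K → G K → Coord K) (κ₀ : ℂ), κ₀ ≠ 0 ∧
      ∀ Φ : Coord K → ℂ, Φ ∈ SymSpan K →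
        ∃ f : G K → ℂ, Continuous f ∧ HasCompactSupport f ∧
          IsBiInv K 𝔫 f ∧ IsSuppAt K 𝔫 v₀ f ∧
          (∀ (g g' : G K) (j : ℤ),
            ∫ x, f (g⁻¹ * unip K x * torK K α ^ j * g') ∂ν
              = κ g g' * Φ (Δ g g' + j • coordTor K n α)) ∧
          ∀ φ : G K → ℂ, IsSph0Level K 𝔫 φ → ∀ a b z₁ z₂ : ℂ, IsHeckeEigenAt φ v₀ a b →
            z₁ + z₂ = a → z₁ * z₂ = b → b ≠ 0 →
            ∀ g : G K, Rop K μ f φ g = κ₀ * ftCoord K Φ z₁ z₂ * φ g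

/-- IN (part of `T1.HeckeCosetC`, DONE by helper724): scalar uniformisers exist at every finite
place. -/
def InScalarUnifC : Prop :=
  ∀ v : HeightOneSpectrum (𝓞 K), ∃ z : G K, IsScalarUniformizerAt v z

/-- **T3.18b** (pure algebra in the group algebra of `Coord K`; memo helper261 §§1--2).
`Φ₁ = δ_{(0,0)} ⊗ ⊗_w (bump ⊗ bump)`, `Φ = ∏_{c} (1 - τ_c) Φ₁` over the `2^{r₂+1}` elements `c` of
the orbit of `c₀` under the swaps; `Φ ∈ SymSpan` (average over the swaps), `Φ = (1 - τ_{c₀}) Φ₂`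
telescopes, `Φ^(z₁,z₂) = [(1 - z₁ⁿ)(1 - z₂ⁿ)]^{2^{r₂}} Φ₁^`; if `b = 0` then `φ = 0`. -/
def LeafEKAlg : Prop :=
  AbelSatakeC K → InScalarUnifC K → EKExistC K

/-- The station leaf: the inputs from T1 give the Abel--Satake pair. -/
def LeafAbelSatake : Prop :=
  InLocCompC K → InDiscreteC K → HaarScaleC K → IwasawaIntC K → AbelSatakeC K

/-- `EKExistC` from its two sub-leaves. -/
theorem ekExist_of (h1 : AbelSatakeC K) (h2 : LeafEKAlg K) (h3 : InScalarUnifC K) :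
    EKExistC K :=
  h2 h1 h3

end Fermat.Agent.LT.T3

end
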