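import Fermat.Agent.LT.T3.OpSpec
import Fermat.Agent.LT.T3.H736.ASSmooth

/-!
# Row LT, tower T3 (architect helper14): SMOOTHNESS AT INFINITY of the EK test function

OFF-MAIN.  Definitions and frozen Props, with the bridges PROVED; no hole, nothing assumed.
`Spec.lean`, `EKSpec.lean`, `OpSpec.lean` (helper14) are FROZEN and are not touched: this file ADDS
the smooth variants asked for by T2 (helper130), T5 (helper32) and the chief (ruling R4).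

THE STATION in the smooth form is the one of the sub-architect helper736
(`H736/ASSmooth.lean`, sha256 2eeaac8d5133, byte-identical copy): `AS.IsSmoothInf`
(`= T2.IsSmoothAtInf = T5.IsSmoothAtInf`, same term), `AS.IsCplxSmooth`, `AS.AbelCplxSmoothC`
(leaf AS.2s), `AS.AbelSatakeSmoothC`, `AS.pureSmooth`, `AS.abelSatakeSmooth_of`.  Here:

* `EKExistSmoothC K`, `EKOpExistSmoothC K`, `T3OutOpSmooth K`: the smooth variants of
  `EKExistC K`, `EKOpExistC K`, `T3OutOp K` (`AS.IsSmoothInf K f` added to the conclusion);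
* the forgetful bridges and `ekOpExistSmooth_of`, `topOpSmooth` (PROVED);
* `ekExistSmooth_of : AS.AbelSatakeSmoothC K → InScalarUnifC K → EKExistSmoothC K` is PROVED in
  `SmoothTop.lean` (the proof of helper732 with one more component).
-/

set_option autoImplicit false

open IsDedekindDomain NumberField MeasureTheory
open Fermat.Agent.LT.H556.A0

noncomputable section

namespace Fermat.Agent.LT.T3

variable (K : Type) [Field K] [NumberField K]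

/-- **T3.18, smooth form** `= EKExistC K` with `AS.IsSmoothInf K f` in the conclusion. -/
def EKExistSmoothC : Prop :=
  letI : MeasurableSpace (Adl K) := borel (Adl K)
  letI : MeasurableSpace (G K) := borel (G K)
  (∀ w : InfinitePlace K, w.IsComplex) →
  ∀ μ : Measure (G K), μ.IsHaarMeasure → ∀ ν : Measure (Adl K), ν.IsAddHaarMeasure →
  ∀ 𝔫 : Ideal (𝓞 K), 𝔫 ≠ ⊥ → ∀ v₀ : HeightOneSpectrum (𝓞 K), ¬ v₀.asIdeal ∣ 𝔫 →
  ∀ (a₀ : 𝓞 K) (n : ℕ), 0 < n → Ideal.span {a₀} = v₀.asIdeal ^ n → a₀ - 1 ∈ 𝔫 →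
  ∀ α : Kˣ, (α : K) = algebraMap (𝓞 K) K a₀ →
    ∃ f : G K → ℂ, Continuous f ∧ HasCompactSupport f ∧ AS.IsSmoothInf K f ∧ IsEK K ν f α ∧
      IsBiInv K 𝔫 f ∧ IsSuppAt K 𝔫 v₀ f ∧
      ∃ c : ℂ → ℂ → ℂ,
        (∀ a b z₁ z₂ : ℂ, z₁ + z₂ = a → z₁ * z₂ = b → z₁ ^ n ≠ 1 → z₂ ^ n ≠ 1 → c a b ≠ 0) ∧
        ∀ φ : G K → ℂ, IsSph0Level K 𝔫 φ → ∀ a b : ℂ, IsHeckeEigenAt φ v₀ a b →
          ∀ g : G K, Rop K μ f φ g = c a b * φ g

/-- **EXISTENCE, operator form, smooth** (tower Prop) `= EKOpExistC K` with `AS.IsSmoothInf K f` in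
the conclusion: `f` is a test function of T2 / T5 (`IsTestFn 𝔫 f`, trivial `K_∞`-type). -/
def EKOpExistSmoothC : Prop :=
  letI : MeasurableSpace (G K) := borel (G K)
  (∀ w : InfinitePlace K, w.IsComplex) →
  ∀ μ : Measure (G K), μ.IsHaarMeasure →
  ∀ 𝔫 : Ideal (𝓞 K), 𝔫 ≠ ⊥ → ∀ v₀ : HeightOneSpectrum (𝓞 K), ¬ v₀.asIdeal ∣ 𝔫 →
  ∀ (a₀ : 𝓞 K) (n : ℕ), 0 < n → Ideal.span {a₀} = v₀.asIdeal ^ n → a₀ - 1 ∈ 𝔫 →
    ∃ f : G K → ℂ, Continuous f ∧ HasCompactSupport f ∧ AS.IsSmoothInf K f ∧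
      IsEKop K μ f ∧ IsEKop K μ (starG K f) ∧
      IsBiInv K 𝔫 f ∧ IsSuppAt K 𝔫 v₀ f ∧
      ∃ c : ℂ → ℂ → ℂ,
        (∀ a b z₁ z₂ : ℂ, z₁ + z₂ = a → z₁ * z₂ = b → z₁ ^ n ≠ 1 → z₂ ^ n ≠ 1 → c a b ≠ 0) ∧
        ∀ φ : G K → ℂ, IsSph0Level K 𝔫 φ → ∀ a b : ℂ, IsHeckeEigenAt φ v₀ a b →
          ∀ g : G K, Rop K μ f φ g = c a b * φ g

/-- THE TOWER PROP of T3 in operator form, with smooth test functions. -/
def T3OutOpSmooth : Prop :=
  GoodCharExistsC K ∧ PoissonNDC K ∧ EKCuspOpC K ∧ EKOpExistSmoothC K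

/-! ## The forgetful bridges -/

theorem ekExist_of_smooth (h : EKExistSmoothC K) : EKExistC K := by
  intro hK μ hμ ν hν 𝔫 h𝔫 v₀ hv₀ a₀ n hn hspan hmem α hα
  obtain ⟨f, h1, h2, -, h4, h5, h6, h7⟩ :=
    h hK μ hμ ν hν 𝔫 h𝔫 v₀ hv₀ a₀ n hn hspan hmem α hα
  exact ⟨f, h1, h2, h4, h5, h6, h7⟩

theorem ekOpExist_of_smooth (h : EKOpExistSmoothC K) : EKOpExistC K := by
  intro hK μ hμ 𝔫 h𝔫 v₀ hv₀ a₀ n hn hspan hmem
  obtain ⟨f, h1, h2, -, h4, h5, h6, h7, h8⟩ := h hK μ hμ 𝔫 h𝔫 v₀ hv₀ a₀ n hn hspan hmem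
  exact ⟨f, h1, h2, h4, h5, h6, h7, h8⟩

theorem t3OutOp_of_smooth (h : T3OutOpSmooth K) : T3OutOp K :=
  ⟨h.1, h.2.1, h.2.2.1, ekOpExist_of_smooth K h.2.2.2⟩

/-- Existence in operator form (smooth) from existence in integral form (smooth), FACT 1 and the
adjoint leaf. -/
theorem ekOpExistSmooth_of (h1 : EKKillC K) (h5 : EKStarC K) (h8 : EKExistSmoothC K)
    (hν : InAddHaarC K) : EKOpExistSmoothC K := by
  intro hK μ hμ 𝔫 h𝔫 v₀ hv₀ a₀ n hn hspan hmem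
  obtain ⟨ν, hνH⟩ := hν
  have ha₀ : algebraMap (𝓞 K) K a₀ ≠ 0 := by
    intro h0
    have h0' : a₀ = 0 := by
      have := (map_eq_zero_iff (algebraMap (𝓞 K) K)
        (FaithfulSMul.algebraMap_injective (𝓞 K) K)).1 h0
      exact this
    rw [h0'] at hspan
    have hbot : (v₀.asIdeal ^ n) = ⊥ := by rw [← hspan]; simp
    exact v₀.ne_bot (pow_eq_zero_iff (Nat.pos_iff_ne_zero.1 hn) |>.1 hbot)
  obtain ⟨f, hf, hfc, hsm, hEK, hbi, hsupp, c, hc, hact⟩ :=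
    h8 hK μ hμ ν hνH 𝔫 h𝔫 v₀ hv₀ a₀ n hn hspan hmem (Units.mk0 _ ha₀) rfl
  refine ⟨f, hf, hfc, hsm, ekOp_of_int K h1 hμ hνH hf hfc hEK, ?_, hbi, hsupp, c, hc, hact⟩
  have hstar : IsEK K ν (starG K f) (Units.mk0 _ ha₀) := h5 ν hνH _ f hf hfc hEK
  have hsc : Continuous (starG K f) := by
    unfold starG
    exact (Complex.continuous_conj).comp (hf.comp continuous_inv)
  have hscc : HasCompactSupport (starG K f) := by
    unfold starG
    have h1 : HasCompactSupport (fun h : G K => f h⁻¹) := by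
      have := hfc.comp_homeomorph (Homeomorph.inv (G K))
      simpa [Function.comp_def] using this
    exact h1.comp_left (g := (starRingEnd ℂ)) (map_zero _)
  exact ekOp_of_int K h1 hμ hνH hsc hscc hstar

/-- THE TOP in operator form, smooth. -/
theorem topOpSmooth (h : T3Out K) (h1 : EKKillC K) (h2 : ConstTermTC K) (h8 : EKExistSmoothC K)
    (hν : InAddHaarC K) : T3OutOpSmooth K :=
  ⟨h.1, h.2.1, ekCuspOp_of K h2, ekOpExistSmooth_of K h1 h.2.2.2.2.1 h8 hν⟩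

end Fermat.Agent.LT.T3

end
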